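import Mathlib

/-!
# PROJECT C, slice A2 (part 1): Tate cohomology in degrees `0` and `-1`

Mathlib's `tateComplex M` is the complex obtained by connecting the inhomogeneous chains and
cochains of `M : Rep R G` (`G` finite) through the norm.  Here: exactness of the Tate complex in
degrees `0` and `-1` in elementwise form.

* `exactAt_zero_iff`     : exact at `0`  ↔ every invariant is a norm;
* `exactAt_neg_one_iff`  : exact at `-1` ↔ every element of norm zero lies in the augmentation
  submodule `Representation.Coinvariants.ker`;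
* `isZero_tateCohomology_zero_iff`, `isZero_tateCohomology_neg_one_iff`: the same for
  `tateCohomology M 0`, `tateCohomology M (-1)`.
-/

set_option autoImplicit false

open CategoryTheory groupCohomology groupHomology Limits

universe u

namespace Fermat.Agent.CFT.A2

variable {R G : Type u} [CommRing R] [Group G] [Fintype G] (M : Rep R G)

/-- The simple model of the Tate complex around degree `0`. -/
noncomputable abbrev scZero : ShortComplex (ModuleCat R) :=
  ShortComplex.mk (M.norm.toModuleCatHom) (d₀₁ M) (Rep.norm_comp_d_eq_zero M)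

noncomputable def scZeroIso : (tateComplex M).sc' (-1) 0 1 ≅ scZero M :=
  ShortComplex.isoMk (chainsIso₀ M) (cochainsIso₀ M) (cochainsIso₁ M)
    (by
      show _ = (tateComplex M).d (-1) 0 ≫ _
      rw [tateComplex_d_neg_one, Rep.tateNorm]
      show (chainsIso₀ M).hom ≫ M.norm.toModuleCatHom =
        ((chainsIso₀ M).hom ≫ M.norm.toModuleCatHom ≫ (cochainsIso₀ M).inv) ≫ (cochainsIso₀ M).hom
      simp only [Category.assoc, Iso.inv_hom_id, Category.comp_id])
    (by
      show _ = (tateComplex M).d 0 1 ≫ _
      exact comp_d₀₁_eq M)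

theorem exactAt_zero_iff :
    (tateComplex M).ExactAt 0 ↔
      ∀ m : M, (∀ g : G, M.ρ g m = m) → ∃ m' : M, M.ρ.norm m' = m := by
  rw [HomologicalComplex.exactAt_iff' _ (-1) 0 1 (by simp) (by simp),
    ShortComplex.exact_iff_of_iso (scZeroIso M), ShortComplex.moduleCat_exact_iff]
  constructor
  · intro h m hm
    obtain ⟨x, hx⟩ := h m (by
      show (d₀₁ M).hom m = 0
      funext g
      rw [d₀₁_hom_apply, hm g, sub_self]
      rfl)
    exact ⟨x, hx⟩
  · intro h m hm
    refine h m fun g => ?_
    have h1 : (d₀₁ M).hom m = 0 := hm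
    have h2 := congrFun h1 g
    rw [d₀₁_hom_apply] at h2
    exact sub_eq_zero.mp h2

end Fermat.Agent.CFT.A2

namespace Fermat.Agent.CFT.A2

variable {R G : Type u} [CommRing R] [Group G] [Fintype G] (M : Rep R G)

/-- The simple model of the Tate complex around degree `-1`. -/
noncomputable abbrev scNegOne : ShortComplex (ModuleCat R) :=
  ShortComplex.mk (d₁₀ M) (M.norm.toModuleCatHom) (Rep.comp_eq_zero M)

noncomputable def scNegOneIso : (tateComplex M).sc' (-2) (-1) 0 ≅ scNegOne M :=
  ShortComplex.isoMk (chainsIso₁ M) (chainsIso₀ M) (cochainsIso₀ M)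
    (by
      show _ = (tateComplex M).d (-2) (-1) ≫ _
      exact comp_d₁₀_eq M)
    (by
      show _ = (tateComplex M).d (-1) 0 ≫ _
      rw [tateComplex_d_neg_one, Rep.tateNorm]
      show (chainsIso₀ M).hom ≫ M.norm.toModuleCatHom =
        ((chainsIso₀ M).hom ≫ M.norm.toModuleCatHom ≫ (cochainsIso₀ M).inv) ≫ (cochainsIso₀ M).hom
      simp only [Category.assoc, Iso.inv_hom_id, Category.comp_id])

theorem exactAt_neg_one_iff :
    (tateComplex M).ExactAt (-1) ↔
      ∀ m : M, M.ρ.norm m = 0 → m ∈ Representation.Coinvariants.ker M.ρ := by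
  rw [HomologicalComplex.exactAt_iff' _ (-2) (-1) 0 (by simp) (by simp),
    ShortComplex.exact_iff_of_iso (scNegOneIso M), ShortComplex.moduleCat_exact_iff]
  constructor
  · intro h m hm
    obtain ⟨x, hx⟩ := h m hm
    rw [← range_d₁₀_eq_coinvariantsKer]
    exact ⟨x, hx⟩
  · intro h m hm
    have := h m hm
    rw [← range_d₁₀_eq_coinvariantsKer] at this
    exact this

end Fermat.Agent.CFT.A2

namespace Fermat.Agent.CFT.A2

variable {R G : Type u} [CommRing R] [Group G] [Fintype G] (M : Rep R G)

theorem isZero_tateCohomology_iff_exactAt (n : ℤ) :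
    IsZero (tateCohomology M n) ↔ (tateComplex M).ExactAt n :=
  (HomologicalComplex.exactAt_iff_isZero_homology _ _).symm

theorem isZero_tateCohomology_zero_iff :
    IsZero (tateCohomology M 0) ↔
      ∀ m : M, (∀ g : G, M.ρ g m = m) → ∃ m' : M, M.ρ.norm m' = m := by
  rw [isZero_tateCohomology_iff_exactAt, exactAt_zero_iff]

theorem isZero_tateCohomology_neg_one_iff :
    IsZero (tateCohomology M (-1)) ↔
      ∀ m : M, M.ρ.norm m = 0 → m ∈ Representation.Coinvariants.ker M.ρ := by
  rw [isZero_tateCohomology_iff_exactAt, exactAt_neg_one_iff]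

end Fermat.Agent.CFT.A2
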