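import Mathlib
import Fermat.Agent.CFT.A2.TateLow

/-!
# PROJECT C, slice A2 (part 2): coinduced modules have trivial Tate cohomology

For a finite group `G` and an `R`-module `X`, the representation `coind₁ R G X` of `G` on the
functions `G → X` by right translation (`(g • f) x = f (x * g)`) is the module coinduced from the
trivial subgroup.  Its Tate cohomology vanishes in every degree `n : ℤ`
(`isZero_tateCohomology_coind₁`):

* `n ≥ 1`  : Shapiro's lemma (`groupCohomology.coindIso`) and the trivial group;
* `n ≤ -2` : `ind ≅ coind` for finite groups, Shapiro's lemma for homology;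
* `n = 0, -1` : direct computation (`TateLow`).
-/

set_option autoImplicit false

open CategoryTheory groupCohomology groupHomology Limits

universe u

namespace Fermat.Agent.CFT.A2

variable (R G : Type u) [CommRing R] [Group G] (X : Type u) [AddCommGroup X] [Module R X]

/-- The representation of `G` on functions `G → X` by right translation:
`(g • f) x = f (x * g)`. -/
def funRep : Representation R G (G → X) where
  toFun g := LinearMap.funLeft R X (fun x => x * g)
  map_one' := by ext f x; simp
  map_mul' g h := by ext f x; simp [mul_assoc]

@[simp]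
theorem funRep_apply (g : G) (f : G → X) (x : G) : funRep R G X g f x = f (x * g) := rfl

/-- The coinduced module from the trivial subgroup, in the function model. -/
noncomputable abbrev coind₁ : Rep R G := Rep.of (funRep R G X)

/-- Comparison with Mathlib's coinduction from the trivial subgroup. -/
noncomputable def coind₁Equiv :
    (funRep R G X).Equiv
      (Representation.coind (⊥ : Subgroup G).subtype
        (Representation.trivial R (⊥ : Subgroup G) X)) :=
  Representation.Equiv.mk
    { toFun := fun f => ⟨f, fun g h => by
        have : (g : G) = 1 := Subgroup.mem_bot.mp g.2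
        simp [this]⟩
      map_add' := fun _ _ => rfl
      map_smul' := fun _ _ => rfl
      invFun := fun f => f.1
      left_inv := fun _ => rfl
      right_inv := fun _ => rfl }
    (fun g => by
      ext f x
      rfl)

noncomputable def coind₁Iso :
    coind₁ R G X ≅ Rep.coind (⊥ : Subgroup G).subtype (Rep.trivial R (⊥ : Subgroup G) X) :=
  Rep.mkIso (coind₁Equiv R G X)

theorem isZero_groupCohomology_coind₁ (n : ℕ) :
    IsZero (groupCohomology (coind₁ R G X) (n + 1)) := by
  refine IsZero.of_iso ?_ ((groupCohomology.functor R G (n + 1)).mapIso (coind₁Iso R G X) ≪≫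
    groupCohomology.coindIso (Rep.trivial R (⊥ : Subgroup G) X) (n + 1))
  exact isZero_groupCohomology_succ_of_subsingleton _ n

end Fermat.Agent.CFT.A2

namespace Fermat.Agent.CFT.A2

variable (R G : Type u) [CommRing R] [Group G] [Finite G] (X : Type u) [AddCommGroup X] [Module R X]

open Classical in
theorem isZero_groupHomology_coind₁ (n : ℕ) :
    IsZero (groupHomology (coind₁ R G X) (n + 1)) := by
  have e1 : coind₁ R G X ≅ Rep.ind (⊥ : Subgroup G).subtype (Rep.trivial R (⊥ : Subgroup G) X) :=
    coind₁Iso R G X ≪≫ (Rep.indCoindIso (Rep.trivial R (⊥ : Subgroup G) X)).symm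
  refine IsZero.of_iso ?_ ((groupHomology.functor R G (n + 1)).mapIso e1 ≪≫
    groupHomology.indIso (⊥ : Subgroup G) (Rep.trivial R (⊥ : Subgroup G) X) (n + 1))
  exact isZero_groupHomology_succ_of_subsingleton _ n

end Fermat.Agent.CFT.A2

namespace Fermat.Agent.CFT.A2

variable (R G : Type u) [CommRing R] [Group G] (X : Type u) [AddCommGroup X] [Module R X]

variable [Fintype G]

theorem funRep_norm_apply (f : G → X) (x : G) :
    (funRep R G X).norm f x = ∑ h : G, f h := by
  rw [Representation.norm, LinearMap.sum_apply, Finset.sum_apply]
  simp only [funRep_apply]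
  exact Fintype.sum_bijective (x * ·) (Group.mulLeft_bijective x) _ _ fun _ => rfl

omit [Fintype G] in
open Classical in
theorem funRep_single (g : G) (y : X) :
    funRep R G X g (Pi.single 1 y) = Pi.single g⁻¹ y := by
  funext x
  simp only [funRep_apply, Pi.single_apply]
  congr 1
  rw [eq_iff_iff, mul_eq_one_iff_eq_inv]

open Classical in
/-- degree `0`: every invariant function is a norm. -/
theorem funRep_exists_norm_eq (f : G → X) (hf : ∀ g : G, funRep R G X g f = f) :
    ∃ f' : G → X, (funRep R G X).norm f' = f := by
  refine ⟨Pi.single 1 (f 1), ?_⟩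
  funext x
  rw [funRep_norm_apply, Finset.sum_pi_single']
  simp only [Finset.mem_univ, if_true]
  have := congrFun (hf x) 1
  simpa using this.symm

open Classical in
/-- degree `-1`: every function of norm zero lies in the augmentation submodule. -/
theorem funRep_mem_ker_of_norm_eq_zero (f : G → X) (hf : (funRep R G X).norm f = 0) :
    f ∈ Representation.Coinvariants.ker (funRep R G X) := by
  have hsum : ∑ h : G, f h = 0 := by
    have := congrFun hf 1
    rwa [funRep_norm_apply] at this
  have hdecomp : f = ∑ h : G, (Pi.single h (f h) - Pi.single 1 (f h)) := by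
    funext x
    simp only [Finset.sum_apply, Pi.sub_apply, Finset.sum_sub_distrib]
    rw [Finset.sum_eq_single x (by intro b _ hb; simp [hb.symm])
      (by simp)]
    simp only [Pi.single_eq_same]
    have : ∑ h : G, (Pi.single (1 : G) (f h) : G → X) x = 0 := by
      by_cases hx : x = 1
      · subst hx; simpa using hsum
      · simp [hx]
    rw [this, sub_zero]
  rw [hdecomp]
  refine Submodule.sum_mem _ fun h _ => ?_
  have := Representation.Coinvariants.sub_mem_ker (ρ := funRep R G X) h⁻¹ (Pi.single 1 (f h))
  rwa [funRep_single, inv_inv] at this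

end Fermat.Agent.CFT.A2

namespace Fermat.Agent.CFT.A2

variable (R G : Type u) [CommRing R] [Group G] [Fintype G] (X : Type u) [AddCommGroup X]
  [Module R X]

/-- **A2.** The module coinduced from the trivial subgroup has trivial Tate cohomology in every
degree. -/
theorem isZero_tateCohomology_coind₁ (n : ℤ) : IsZero (tateCohomology (coind₁ R G X) n) := by
  obtain ⟨k, rfl | rfl⟩ := n.eq_nat_or_neg
  · -- `n = k ≥ 0`
    rcases k with _ | k
    · -- degree `0`
      rw [Nat.cast_zero, isZero_tateCohomology_zero_iff]
      exact fun f hf => funRep_exists_norm_eq R G X f hf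
    · -- degree `k + 1`
      have e := (TateCohomology.isoGroupCohomology (R := R) (G := G) (k + 1)).app (coind₁ R G X)
      exact IsZero.of_iso (isZero_groupCohomology_coind₁ R G X k) e
  · -- `n = -k`
    rcases k with _ | _ | k
    · rw [Nat.cast_zero, neg_zero, isZero_tateCohomology_zero_iff]
      exact fun f hf => funRep_exists_norm_eq R G X f hf
    · -- degree `-1`
      have : (-((0 + 1 : ℕ) : ℤ)) = -1 := by norm_num
      rw [this, isZero_tateCohomology_neg_one_iff]
      exact fun f hf => funRep_mem_ker_of_norm_eq_zero R G X f hf
    · -- degree `-(k + 2)`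
      have e := (TateCohomology.isoGroupHomology (R := R) (G := G) (-((k + 1 + 1 : ℕ) : ℤ)) (k + 1)
        (by push_cast; ring)).app (coind₁ R G X)
      exact IsZero.of_iso (isZero_groupHomology_coind₁ R G X k) e

end Fermat.Agent.CFT.A2
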