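import Mathlib
import Fermat.Agent.CFT.A2.Induced

/-!
# PROJECT C, slice A2 (part 3): Mackey for the regular case

The restriction to a subgroup `H ≤ G` of the coinduced module `coind₁ R G X` (functions `G → X`,
right translation) is again coinduced: it is `coind₁ R H (G ⧸ H → X)` (`resCoind₁Iso`).  Hence the
Tate cohomology of `coind₁ R G X` vanishes for every subgroup and every degree
(`isZero_tateCohomology_res_coind₁`): coinduced modules are cohomologically trivial.
-/

set_option autoImplicit false

open CategoryTheory groupCohomology groupHomology Limits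

universe u

namespace Fermat.Agent.CFT.A2

variable (R G : Type u) [CommRing R] [Group G] (X : Type u) [AddCommGroup X] [Module R X]
  (H : Subgroup G)

/-- The `H`-component of `g`: `g = (mk g).out * hPart g`. -/
noncomputable def hPart (g : G) : H :=
  ⟨((QuotientGroup.mk g : G ⧸ H).out)⁻¹ * g,
    QuotientGroup.eq.mp (QuotientGroup.out_eq' (QuotientGroup.mk g : G ⧸ H))⟩

theorem out_mul_hPart (g : G) : (QuotientGroup.mk g : G ⧸ H).out * (hPart G H g : G) = g := by
  simp [hPart]

theorem mk_out_mul (c : G ⧸ H) (h : H) : (QuotientGroup.mk (c.out * (h : G)) : G ⧸ H) = c := by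
  conv_rhs => rw [← QuotientGroup.out_eq' c]
  rw [QuotientGroup.eq]
  simp

theorem hPart_out_mul (c : G ⧸ H) (h : H) : hPart G H (c.out * (h : G)) = h := by
  apply Subtype.ext
  simp only [hPart, mk_out_mul]
  group

/-- Mackey decomposition for the trivial subgroup, as a linear equivalence. -/
noncomputable def mackeyLinearEquiv : (G → X) ≃ₗ[R] (H → (G ⧸ H → X)) where
  toFun f := fun h c => f (c.out * (h : G))
  map_add' _ _ := rfl
  map_smul' _ _ := rfl
  invFun F := fun g => F (hPart G H g) (QuotientGroup.mk g)
  left_inv f := by
    funext g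
    simp only [out_mul_hPart]
  right_inv F := by
    funext h c
    simp only [hPart_out_mul, mk_out_mul]

/-- Mackey decomposition for the trivial subgroup: the restriction to `H` of the coinduced module
`coind₁ R G X` is coinduced (from the trivial subgroup of `H`). -/
noncomputable def resCoind₁Iso :
    Rep.res H.subtype (coind₁ R G X) ≅ coind₁ R H (G ⧸ H → X) :=
  Rep.mkIso (Representation.Equiv.mk (mackeyLinearEquiv R G X H) (fun h => by
    ext f h' c
    show f (c.out * (h' : G) * (h : G)) = f (c.out * ((h' * h : H) : G))
    rw [Subgroup.coe_mul, mul_assoc]))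

variable [Fintype H]

/-- Coinduced modules have trivial Tate cohomology for every subgroup. -/
theorem isZero_tateCohomology_res_coind₁ (n : ℤ) :
    IsZero (tateCohomology (Rep.res H.subtype (coind₁ R G X)) n) :=
  IsZero.of_iso (isZero_tateCohomology_coind₁ R H (G ⧸ H → X) n)
    ((tateCohomologyFunctor n).mapIso (resCoind₁Iso R G X H))

end Fermat.Agent.CFT.A2
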