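import Mathlib
import Fermat.Agent.CFT.A2.Induced

/-!
# PROJECT C, slice A2 (part 7): Mackey for the regular case along an injective homomorphism

Generalisation of `Mackey.lean` from subgroups `H ≤ G` to arbitrary injective homomorphisms
`f : H →* G`: `Rep.res f (coind₁ R G X) ≅ coind₁ R H (G ⧸ f.range → X)`, hence the Tate
cohomology of `Rep.res f (coind₁ R G X)` vanishes in every degree
(`isZero_tateCohomology_res_coind₁_of_injective`).  Working with injective homomorphisms instead of
subgroups makes "subgroups of subgroups" and conjugates definitional (`Rep.res g (Rep.res f M)`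
is `Rep.res (f.comp g) M`).
-/

set_option autoImplicit false

open CategoryTheory groupCohomology groupHomology Limits

universe u

namespace Fermat.Agent.CFT.A2

variable (R G : Type u) [CommRing R] [Group G] (X : Type u) [AddCommGroup X] [Module R X]
  {H : Type u} [Group H] (f : H →* G) (hf : Function.Injective f)

/-- The `H`-component of `g` with respect to an injective `f : H →* G`:
`g = (mk g).out * f (hPartHom g)`. -/
noncomputable def hPartHom (g : G) : H :=
  (Equiv.ofInjective f hf).symm
    ⟨((QuotientGroup.mk g : G ⧸ f.range).out)⁻¹ * g,
      MonoidHom.mem_range.mp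
        (QuotientGroup.eq.mp (QuotientGroup.out_eq' (QuotientGroup.mk g : G ⧸ f.range)))⟩

theorem f_hPartHom (g : G) :
    f (hPartHom G f hf g) = ((QuotientGroup.mk g : G ⧸ f.range).out)⁻¹ * g := by
  unfold hPartHom
  exact Equiv.apply_ofInjective_symm hf _

theorem out_mul_hPartHom (g : G) :
    (QuotientGroup.mk g : G ⧸ f.range).out * f (hPartHom G f hf g) = g := by
  rw [f_hPartHom]; group

theorem mk_out_mul_hom (c : G ⧸ f.range) (h : H) :
    (QuotientGroup.mk (c.out * f h) : G ⧸ f.range) = c := by
  conv_rhs => rw [← QuotientGroup.out_eq' c]
  rw [QuotientGroup.eq]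
  simp

theorem hPartHom_out_mul (c : G ⧸ f.range) (h : H) : hPartHom G f hf (c.out * f h) = h := by
  apply hf
  rw [f_hPartHom, mk_out_mul_hom]
  group

/-- Mackey decomposition for the trivial subgroup along an injective homomorphism, as a linear
equivalence. -/
noncomputable def mackeyHomLinearEquiv : (G → X) ≃ₗ[R] (H → (G ⧸ f.range → X)) where
  toFun φ := fun h c => φ (c.out * f h)
  map_add' _ _ := rfl
  map_smul' _ _ := rfl
  invFun F := fun g => F (hPartHom G f hf g) (QuotientGroup.mk g)
  left_inv φ := by
    funext g
    simp only [out_mul_hPartHom]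
  right_inv F := by
    funext h c
    simp only [hPartHom_out_mul, mk_out_mul_hom]

/-- Mackey decomposition for the trivial subgroup: the restriction along an injective
`f : H →* G` of the coinduced module `coind₁ R G X` is coinduced. -/
noncomputable def resCoind₁IsoOfInjective :
    Rep.res f (coind₁ R G X) ≅ coind₁ R H (G ⧸ f.range → X) :=
  Rep.mkIso (Representation.Equiv.mk (mackeyHomLinearEquiv R G X f hf) (fun h => by
    ext φ h' c
    show φ (c.out * f h' * f h) = φ (c.out * f (h' * h))
    rw [map_mul, mul_assoc]))

variable [Fintype H]

include hf in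
/-- Coinduced modules have trivial Tate cohomology along every injective homomorphism from a
finite group. -/
theorem isZero_tateCohomology_res_coind₁_of_injective (n : ℤ) :
    IsZero (tateCohomology (Rep.res f (coind₁ R G X)) n) :=
  IsZero.of_iso (isZero_tateCohomology_coind₁ R H (G ⧸ f.range → X) n)
    ((tateCohomologyFunctor n).mapIso (resCoind₁IsoOfInjective R G X f hf))

end Fermat.Agent.CFT.A2
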