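import Mathlib
import Fermat.Agent.CFT.A2.Mackey

/-!
# PROJECT C, slice A2 (part 4): cohomologically trivial modules

`IsCohTrivial M`: the Tate cohomology of `M` vanishes for every subgroup and every degree.

* `isCohTrivial_coind₁` : coinduced modules are cohomologically trivial;
* `IsCohTrivial.of_iso`, `IsCohTrivial.of_retract` : closure under isomorphisms and retracts
  (direct summands);
* `isZero_tateCohomology_X₁/X₂/X₃` : vanishing in a short exact sequence from the long exact
  sequence of Tate cohomology; `IsCohTrivial.X₁/X₂/X₃` : two-out-of-three;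
* `isIso_δ_of_isZero` : the connecting homomorphism is an isomorphism when the middle term has
  vanishing Tate cohomology in the two adjacent degrees.
-/

set_option autoImplicit false

open CategoryTheory Limits

universe u

namespace Fermat.Agent.CFT.A2

variable {R G : Type u} [CommRing R] [Group G]

/-- A representation of a finite group is *cohomologically trivial* if the Tate cohomology of its
restriction to every subgroup vanishes in every degree. -/
def IsCohTrivial (M : Rep R G) : Prop :=
  ∀ (H : Subgroup G) [Fintype H] (n : ℤ), IsZero (tateCohomology (Rep.res H.subtype M) n)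

theorem isCohTrivial_coind₁ (X : Type u) [AddCommGroup X] [Module R X] :
    IsCohTrivial (coind₁ R G X) :=
  fun H _ n => isZero_tateCohomology_res_coind₁ R G X H n

theorem IsCohTrivial.of_iso {M N : Rep R G} (e : M ≅ N) (h : IsCohTrivial M) : IsCohTrivial N :=
  fun H _ n => IsZero.of_iso (h H n)
    ((tateCohomologyFunctor n).mapIso ((Rep.resFunctor H.subtype).mapIso e.symm))

/-- A retract (e.g. a direct summand) of a cohomologically trivial module is cohomologically
trivial. -/
theorem IsCohTrivial.of_retract {M N : Rep R G} (i : N ⟶ M) (p : M ⟶ N) (hip : i ≫ p = 𝟙 N)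
    (h : IsCohTrivial M) : IsCohTrivial N := by
  intro H _ n
  rw [IsZero.iff_id_eq_zero]
  have h1 : (tateCohomologyFunctor n).map ((Rep.resFunctor H.subtype).map i) ≫
      (tateCohomologyFunctor n).map ((Rep.resFunctor H.subtype).map p) = 𝟙 _ := by
    rw [← CategoryTheory.Functor.map_comp, ← CategoryTheory.Functor.map_comp, hip,
      CategoryTheory.Functor.map_id, CategoryTheory.Functor.map_id]
  rw [← h1, (h H n).eq_of_tgt ((tateCohomologyFunctor n).map ((Rep.resFunctor H.subtype).map i)) 0,
    zero_comp]

section LES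

variable [Fintype G] {S : ShortComplex (Rep R G)} (hS : S.ShortExact) (n : ℤ)
include hS

theorem isZero_tateCohomology_X₂ (h1 : IsZero (tateCohomology S.X₁ n))
    (h3 : IsZero (tateCohomology S.X₃ n)) : IsZero (tateCohomology S.X₂ n) :=
  ((TateCohomology.map_tateComplexFunctor_shortExact hS).homology_exact₂ n).isZero_X₂
    (h1.eq_of_src _ _) (h3.eq_of_tgt _ _)

theorem isZero_tateCohomology_X₃ (h2 : IsZero (tateCohomology S.X₂ n))
    (h1 : IsZero (tateCohomology S.X₁ (n + 1))) : IsZero (tateCohomology S.X₃ n) :=
  (TateCohomology.exact₃ hS n).isZero_X₂ (h2.eq_of_src _ _) (h1.eq_of_tgt _ _)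

theorem isZero_tateCohomology_X₁ (h3 : IsZero (tateCohomology S.X₃ n))
    (h2 : IsZero (tateCohomology S.X₂ (n + 1))) : IsZero (tateCohomology S.X₁ (n + 1)) :=
  (TateCohomology.exact₁ hS n).isZero_X₂ (h3.eq_of_src _ _) (h2.eq_of_tgt _ _)

/-- The connecting homomorphism of Tate cohomology is an isomorphism when the middle term has
vanishing Tate cohomology in the two relevant degrees. -/
theorem isIso_δ_of_isZero (h1 : IsZero (tateCohomology S.X₂ n))
    (h2 : IsZero (tateCohomology S.X₂ (n + 1))) : IsIso (TateCohomology.δ hS n) := by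
  have hm : Mono (TateCohomology.δ hS n) :=
    (TateCohomology.exact₃ hS n).mono_g (h1.eq_of_src _ _)
  have he : Epi (TateCohomology.δ hS n) :=
    (TateCohomology.exact₁ hS n).epi_f (h2.eq_of_tgt _ _)
  exact isIso_of_mono_of_epi _

end LES

section TwoOfThree

variable {S : ShortComplex (Rep R G)} (hS : S.ShortExact)
include hS

theorem IsCohTrivial.X₂ (h1 : IsCohTrivial S.X₁) (h3 : IsCohTrivial S.X₃) : IsCohTrivial S.X₂ :=
  fun H _ n => isZero_tateCohomology_X₂ ((Rep.shortExact_res H.subtype).2 hS) n (h1 H n) (h3 H n)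

theorem IsCohTrivial.X₃ (h1 : IsCohTrivial S.X₁) (h2 : IsCohTrivial S.X₂) : IsCohTrivial S.X₃ :=
  fun H _ n => isZero_tateCohomology_X₃ ((Rep.shortExact_res H.subtype).2 hS) n (h2 H n)
    (h1 H (n + 1))

theorem IsCohTrivial.X₁ (h2 : IsCohTrivial S.X₂) (h3 : IsCohTrivial S.X₃) : IsCohTrivial S.X₁ := by
  intro H _ n
  have := isZero_tateCohomology_X₁ ((Rep.shortExact_res H.subtype).2 hS) (n - 1) (h3 H (n - 1))
    (by rw [sub_add_cancel]; exact h2 H n)
  rw [sub_add_cancel] at this
  exact this

end TwoOfThree

end Fermat.Agent.CFT.A2
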