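import Mathlib
import Fermat.Agent.CFT.A2.Trivial

/-!
# PROJECT C, slice A2 (part 5): dimension shifting

For `M : Rep R G` the two short exact sequences

* `upSC M   : 0 → M → coind₁ M → up M → 0`,   `m ↦ (x ↦ ρ(x) m)`,
* `downSC M : 0 → down M → coind₁ M → M → 0`, `f ↦ ∑ x, ρ(x⁻¹) (f x)`   (finite `G`),

have a cohomologically trivial middle term, hence for EVERY subgroup `H` and EVERY `n : ℤ`

* `upIso M H n   : Ĥⁿ(H, up M) ≅ Ĥⁿ⁺¹(H, M)`     (the connecting map `upδ M H n`),
* `downIso M H n : Ĥⁿ(H, M) ≅ Ĥⁿ⁺¹(H, down M)`   (the connecting map `downδ M H n`),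

naturally in `M` (`upδ_naturality`, `downδ_naturality`).  Consequently
`IsCohTrivial (up M) ↔ IsCohTrivial M ↔ IsCohTrivial (down M)`.
-/

set_option autoImplicit false

open CategoryTheory Limits

universe u

namespace Fermat.Agent.CFT.A2

variable {R G : Type u} [CommRing R] [Group G]

/-- Functoriality of `coind₁` in the coefficient module. -/
noncomputable def coind₁Map {X Y : Type u} [AddCommGroup X] [Module R X] [AddCommGroup Y]
    [Module R Y] (f : X →ₗ[R] Y) : coind₁ R G X ⟶ coind₁ R G Y :=
  Rep.ofHom (ρ := funRep R G X) (σ := funRep R G Y)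
    { toLinearMap := LinearMap.pi (fun x => f.comp (LinearMap.proj x))
      isIntertwining' := fun g => by
        ext φ x
        simp }

theorem coind₁Map_apply {X Y : Type u} [AddCommGroup X] [Module R X] [AddCommGroup Y]
    [Module R Y] (f : X →ₗ[R] Y) (φ : G → X) (x : G) :
    (coind₁Map (G := G) f).hom φ x = f (φ x) := rfl

/-! ### Shifting up -/

/-- The canonical embedding `M → coind₁ M`, `m ↦ (x ↦ ρ(x) m)`. -/
noncomputable def upι (M : Rep R G) : M ⟶ coind₁ R G M.V :=
  Rep.ofHom (ρ := M.ρ) (σ := funRep R G M.V)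
    { toLinearMap := LinearMap.pi (fun x => M.ρ x)
      isIntertwining' := fun g => by
        ext m x
        simp }

theorem upι_apply (M : Rep R G) (m : M.V) (x : G) : (upι M).hom m x = M.ρ x m := rfl

theorem upι_injective (M : Rep R G) : Function.Injective (upι M).hom := by
  intro m m' h
  have := congrFun h 1
  rw [upι_apply, upι_apply, map_one] at this
  exact this

instance (M : Rep R G) : Mono (upι M) := (Rep.mono_iff_injective _).2 (upι_injective M)

/-- The dimension shift upwards: `up M = coind₁ M / M`. -/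
noncomputable def up (M : Rep R G) : Rep R G := cokernel (upι M)

/-- The projection `coind₁ M → up M`. -/
noncomputable def upπ (M : Rep R G) : coind₁ R G M.V ⟶ up M := cokernel.π (upι M)

instance (M : Rep R G) : Epi (upπ M) := inferInstanceAs (Epi (cokernel.π (upι M)))

theorem upι_upπ (M : Rep R G) : upι M ≫ upπ M = 0 := cokernel.condition _

/-- The short exact sequence `0 → M → coind₁ M → up M → 0`. -/
noncomputable def upSC (M : Rep R G) : ShortComplex (Rep R G) :=
  ShortComplex.mk (upι M) (upπ M) (upι_upπ M)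

theorem upSC_shortExact (M : Rep R G) : (upSC M).ShortExact where
  exact := ShortComplex.exact_cokernel _
  mono_f := inferInstanceAs (Mono (upι M))
  epi_g := inferInstanceAs (Epi (upπ M))

theorem upι_naturality {M N : Rep R G} (f : M ⟶ N) :
    upι M ≫ coind₁Map f.hom.toLinearMap = f ≫ upι N := by
  ext m x
  show f.hom (M.ρ x m) = N.ρ x (f.hom m)
  exact Rep.hom_comm_apply f x m

/-- Functoriality of `up`. -/
noncomputable def upMap {M N : Rep R G} (f : M ⟶ N) : up M ⟶ up N :=
  cokernel.map (upι M) (upι N) f (coind₁Map f.hom.toLinearMap) (upι_naturality f)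

theorem upπ_upMap {M N : Rep R G} (f : M ⟶ N) :
    upπ M ≫ upMap f = coind₁Map f.hom.toLinearMap ≫ upπ N :=
  cokernel.π_desc (upι M) (coind₁Map f.hom.toLinearMap ≫ cokernel.π (upι N)) _

/-- The morphism of short exact sequences `upSC M ⟶ upSC N` induced by `f : M ⟶ N`. -/
noncomputable def upSCMap {M N : Rep R G} (f : M ⟶ N) : upSC M ⟶ upSC N where
  τ₁ := f
  τ₂ := coind₁Map f.hom.toLinearMap
  τ₃ := upMap f
  comm₁₂ := (upι_naturality f).symm
  comm₂₃ := (upπ_upMap f).symm

theorem upSC_res_shortExact (M : Rep R G) (H : Subgroup G) :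
    ((upSC M).map (Rep.resFunctor H.subtype)).ShortExact :=
  (Rep.shortExact_res H.subtype).2 (upSC_shortExact M)

/-- The connecting map `Ĥⁿ(H, up M) ⟶ Ĥⁿ⁺¹(H, M)`. -/
noncomputable def upδ (M : Rep R G) (H : Subgroup G) [Fintype H] (n : ℤ) :
    tateCohomology (Rep.res H.subtype (up M)) n ⟶ tateCohomology (Rep.res H.subtype M) (n + 1) :=
  TateCohomology.δ (upSC_res_shortExact M H) n

instance (M : Rep R G) (H : Subgroup G) [Fintype H] (n : ℤ) : IsIso (upδ M H n) :=
  isIso_δ_of_isZero (upSC_res_shortExact M H) n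
    (isZero_tateCohomology_res_coind₁ R G M.V H n)
    (isZero_tateCohomology_res_coind₁ R G M.V H (n + 1))

/-- Dimension shifting upwards: `Ĥⁿ(H, up M) ≅ Ĥⁿ⁺¹(H, M)` for every subgroup `H` and `n : ℤ`. -/
noncomputable def upIso (M : Rep R G) (H : Subgroup G) [Fintype H] (n : ℤ) :
    tateCohomology (Rep.res H.subtype (up M)) n ≅ tateCohomology (Rep.res H.subtype M) (n + 1) :=
  asIso (upδ M H n)

theorem upδ_naturality {M N : Rep R G} (f : M ⟶ N) (H : Subgroup G) [Fintype H] (n : ℤ) :
    upδ M H n ≫ (tateCohomologyFunctor (n + 1)).map ((Rep.resFunctor H.subtype).map f) =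
      (tateCohomologyFunctor n).map ((Rep.resFunctor H.subtype).map (upMap f)) ≫ upδ N H n :=
  TateCohomology.δ_naturality (upSC_res_shortExact M H) (upSC_res_shortExact N H)
    ((Rep.resFunctor H.subtype).mapShortComplex.map (upSCMap f)) n

theorem isCohTrivial_up_iff (M : Rep R G) : IsCohTrivial (up M) ↔ IsCohTrivial M := by
  constructor
  · intro h H _ n
    have := IsZero.of_iso (h H (n - 1)) (upIso M H (n - 1)).symm
    rw [sub_add_cancel] at this
    exact this
  · intro h H _ n
    exact IsZero.of_iso (h H (n + 1)) (upIso M H n)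

/-! ### Shifting down -/

variable [Fintype G]

/-- The canonical projection `coind₁ M → M`, `f ↦ ∑ x, ρ(x⁻¹) (f x)`. -/
noncomputable def downπ (M : Rep R G) : coind₁ R G M.V ⟶ M :=
  Rep.ofHom (ρ := funRep R G M.V) (σ := M.ρ)
    { toLinearMap :=
        { toFun := fun f => ∑ x : G, M.ρ x⁻¹ (f x)
          map_add' := fun f f' => by simp [Finset.sum_add_distrib]
          map_smul' := fun r f => by simp [Finset.smul_sum] }
      isIntertwining' := fun g => by
        ext f
        show ∑ x : G, M.ρ x⁻¹ (f (x * g)) = M.ρ g (∑ x : G, M.ρ x⁻¹ (f x))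
        rw [map_sum]
        refine Fintype.sum_equiv (Equiv.mulRight g) _ _ (fun x => ?_)
        simp only [Equiv.coe_mulRight, mul_inv_rev]
        rw [← Module.End.mul_apply, ← map_mul, mul_inv_cancel_left] }

theorem downπ_apply (M : Rep R G) (f : G → M.V) : (downπ M).hom f = ∑ x : G, M.ρ x⁻¹ (f x) := rfl

theorem downπ_surjective (M : Rep R G) : Function.Surjective (downπ M).hom := by
  classical
  intro m
  refine ⟨Pi.single 1 m, ?_⟩
  rw [downπ_apply, Finset.sum_eq_single 1]
  · simp
  · intro x _ hx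
    simp [Pi.single_eq_of_ne hx]
  · simp

instance (M : Rep R G) : Epi (downπ M) := (Rep.epi_iff_surjective _).2 (downπ_surjective M)

/-- The dimension shift downwards: `down M = ker (coind₁ M → M)`. -/
noncomputable def down (M : Rep R G) : Rep R G := kernel (downπ M)

/-- The inclusion `down M → coind₁ M`. -/
noncomputable def downι (M : Rep R G) : down M ⟶ coind₁ R G M.V := kernel.ι (downπ M)

instance (M : Rep R G) : Mono (downι M) := inferInstanceAs (Mono (kernel.ι (downπ M)))

theorem downι_downπ (M : Rep R G) : downι M ≫ downπ M = 0 := kernel.condition _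

/-- The short exact sequence `0 → down M → coind₁ M → M → 0`. -/
noncomputable def downSC (M : Rep R G) : ShortComplex (Rep R G) :=
  ShortComplex.mk (downι M) (downπ M) (downι_downπ M)

theorem downSC_shortExact (M : Rep R G) : (downSC M).ShortExact where
  exact := ShortComplex.exact_kernel _
  mono_f := inferInstanceAs (Mono (downι M))
  epi_g := inferInstanceAs (Epi (downπ M))

theorem downπ_naturality {M N : Rep R G} (f : M ⟶ N) :
    coind₁Map f.hom.toLinearMap ≫ downπ N = downπ M ≫ f := by
  ext φ
  show ∑ x : G, N.ρ x⁻¹ (f.hom (φ x)) = f.hom (∑ x : G, M.ρ x⁻¹ (φ x))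
  rw [map_sum]
  exact Finset.sum_congr rfl (fun x _ => (Rep.hom_comm_apply f x⁻¹ (φ x)).symm)

/-- Functoriality of `down`. -/
noncomputable def downMap {M N : Rep R G} (f : M ⟶ N) : down M ⟶ down N :=
  kernel.map (downπ M) (downπ N) (coind₁Map f.hom.toLinearMap) f (downπ_naturality f).symm

theorem downMap_downι {M N : Rep R G} (f : M ⟶ N) :
    downMap f ≫ downι N = downι M ≫ coind₁Map f.hom.toLinearMap :=
  kernel.lift_ι (downπ N) (kernel.ι (downπ M) ≫ coind₁Map f.hom.toLinearMap) _

/-- The morphism of short exact sequences `downSC M ⟶ downSC N` induced by `f : M ⟶ N`. -/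
noncomputable def downSCMap {M N : Rep R G} (f : M ⟶ N) : downSC M ⟶ downSC N where
  τ₁ := downMap f
  τ₂ := coind₁Map f.hom.toLinearMap
  τ₃ := f
  comm₁₂ := downMap_downι f
  comm₂₃ := downπ_naturality f

theorem downSC_res_shortExact (M : Rep R G) (H : Subgroup G) :
    ((downSC M).map (Rep.resFunctor H.subtype)).ShortExact :=
  (Rep.shortExact_res H.subtype).2 (downSC_shortExact M)

/-- The connecting map `Ĥⁿ(H, M) ⟶ Ĥⁿ⁺¹(H, down M)`. -/
noncomputable def downδ (M : Rep R G) (H : Subgroup G) [Fintype H] (n : ℤ) :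
    tateCohomology (Rep.res H.subtype M) n ⟶ tateCohomology (Rep.res H.subtype (down M)) (n + 1) :=
  TateCohomology.δ (downSC_res_shortExact M H) n

instance (M : Rep R G) (H : Subgroup G) [Fintype H] (n : ℤ) : IsIso (downδ M H n) :=
  isIso_δ_of_isZero (downSC_res_shortExact M H) n
    (isZero_tateCohomology_res_coind₁ R G M.V H n)
    (isZero_tateCohomology_res_coind₁ R G M.V H (n + 1))

/-- Dimension shifting downwards: `Ĥⁿ(H, M) ≅ Ĥⁿ⁺¹(H, down M)`. -/
noncomputable def downIso (M : Rep R G) (H : Subgroup G) [Fintype H] (n : ℤ) :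
    tateCohomology (Rep.res H.subtype M) n ≅ tateCohomology (Rep.res H.subtype (down M)) (n + 1) :=
  asIso (downδ M H n)

theorem downδ_naturality {M N : Rep R G} (f : M ⟶ N) (H : Subgroup G) [Fintype H] (n : ℤ) :
    downδ M H n ≫ (tateCohomologyFunctor (n + 1)).map ((Rep.resFunctor H.subtype).map (downMap f)) =
      (tateCohomologyFunctor n).map ((Rep.resFunctor H.subtype).map f) ≫ downδ N H n :=
  TateCohomology.δ_naturality (downSC_res_shortExact M H) (downSC_res_shortExact N H)
    ((Rep.resFunctor H.subtype).mapShortComplex.map (downSCMap f)) n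

theorem isCohTrivial_down_iff (M : Rep R G) : IsCohTrivial (down M) ↔ IsCohTrivial M := by
  constructor
  · intro h H _ n
    exact IsZero.of_iso (h H (n + 1)) (downIso M H n)
  · intro h H _ n
    have := IsZero.of_iso (h H (n - 1)) (downIso M H (n - 1)).symm
    rw [sub_add_cancel] at this
    exact this

end Fermat.Agent.CFT.A2
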