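import Mathlib
import Fermat.Agent.CFT.A2.Shift

/-!
# PROJECT C, slice A2 (part 6): consumer forms of dimension shifting

* `isZero_tateCohomology_up_iff`, `isZero_tateCohomology_down_iff` : the shift isomorphisms of
  `Shift.lean` in `IsZero ↔ IsZero` form, for every subgroup and every degree;
* `isZero_tateCohomology_X₃_iff_X₁` : the same for an arbitrary short exact sequence whose middle
  term has vanishing Tate cohomology in the two adjacent degrees;
* elementwise access to `up M = coind₁ M / M` and `down M = ker (coind₁ M → M)`: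
  `rep_exact_apply`, `upπ_surjective`, `upπ_apply_eq_zero_iff`, `downι_injective`,
  `downπ_downι_apply`, `exists_downι_apply_eq`;
* torsion bookkeeping: `up_smul_eq_zero`, `down_smul_eq_zero` (killed by `r`),
  `up_smul_cancel`, `down_smul_cancel` (`r`-torsion-free).
-/

set_option autoImplicit false

open CategoryTheory Limits

universe u

namespace Fermat.Agent.CFT.A2

variable {R G : Type u} [CommRing R] [Group G]

/-! ### IsZero forms of the shifts -/

theorem isZero_tateCohomology_up_iff (M : Rep R G) (H : Subgroup G) [Fintype H] (n : ℤ) :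
    IsZero (tateCohomology (Rep.res H.subtype (up M)) n) ↔
      IsZero (tateCohomology (Rep.res H.subtype M) (n + 1)) :=
  ⟨fun h => IsZero.of_iso h (upIso M H n).symm, fun h => IsZero.of_iso h (upIso M H n)⟩

theorem isZero_tateCohomology_down_iff [Fintype G] (M : Rep R G) (H : Subgroup G) [Fintype H]
    (n : ℤ) :
    IsZero (tateCohomology (Rep.res H.subtype (down M)) (n + 1)) ↔
      IsZero (tateCohomology (Rep.res H.subtype M) n) :=
  ⟨fun h => IsZero.of_iso h (downIso M H n), fun h => IsZero.of_iso h (downIso M H n).symm⟩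

/-- Generic shift: if the middle term of a short exact sequence has vanishing Tate cohomology in
degrees `n` and `n + 1`, then `Ĥⁿ(X₃) = 0 ↔ Ĥⁿ⁺¹(X₁) = 0`. -/
theorem isZero_tateCohomology_X₃_iff_X₁ [Fintype G] {S : ShortComplex (Rep R G)}
    (hS : S.ShortExact) (n : ℤ) (h1 : IsZero (tateCohomology S.X₂ n))
    (h2 : IsZero (tateCohomology S.X₂ (n + 1))) :
    IsZero (tateCohomology S.X₃ n) ↔ IsZero (tateCohomology S.X₁ (n + 1)) := by
  have := isIso_δ_of_isZero hS n h1 h2
  exact ⟨fun h => IsZero.of_iso h (asIso (TateCohomology.δ hS n)).symm,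
    fun h => IsZero.of_iso h (asIso (TateCohomology.δ hS n))⟩

/-! ### Elementwise access -/

/-- Elementwise form of exactness in `Rep R G`. -/
theorem rep_exact_apply {S : ShortComplex (Rep R G)} (hS : S.Exact) (x : S.X₂.V)
    (hx : S.g.hom x = 0) : ∃ y : S.X₁.V, S.f.hom y = x := by
  have h1 : (S.map (forget₂ (Rep R G) (ModuleCat R))).Exact := hS.map _
  rw [ShortComplex.moduleCat_exact_iff] at h1
  exact h1 x hx

theorem upπ_surjective (M : Rep R G) : Function.Surjective (upπ M).hom :=
  (Rep.epi_iff_surjective _).1 inferInstance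

theorem upπ_upι_apply (M : Rep R G) (m : M.V) : (upπ M).hom ((upι M).hom m) = 0 := by
  have := congrArg (fun f => f.hom m) (upι_upπ M)
  simpa using this

theorem upπ_apply_eq_zero_iff (M : Rep R G) (f : G → M.V) :
    (upπ M).hom f = 0 ↔ ∃ m : M.V, f = fun x => M.ρ x m := by
  constructor
  · intro h
    obtain ⟨m, hm⟩ := rep_exact_apply (upSC_shortExact M).exact f h
    exact ⟨m, hm.symm⟩
  · rintro ⟨m, rfl⟩
    exact upπ_upι_apply M m

/-- If `r` kills `M`, it kills `up M`. -/
theorem up_smul_eq_zero (M : Rep R G) (r : R) (h : ∀ m : M.V, r • m = 0) (x : (up M).V) :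
    r • x = 0 := by
  obtain ⟨f, rfl⟩ := upπ_surjective M x
  rw [← map_smul]
  have : r • f = 0 := by
    funext g
    exact h (f g)
  rw [this, map_zero]

/-- If `M` has no `r`-torsion, neither has `up M`. -/
theorem up_smul_cancel (M : Rep R G) (r : R) (h : ∀ m : M.V, r • m = 0 → m = 0) (x : (up M).V)
    (hx : r • x = 0) : x = 0 := by
  obtain ⟨f, rfl⟩ := upπ_surjective M x
  rw [← map_smul, upπ_apply_eq_zero_iff] at hx
  obtain ⟨m, hm⟩ := hx
  rw [upπ_apply_eq_zero_iff]
  refine ⟨f 1, ?_⟩
  funext g
  have h1 : r • f 1 = m := by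
    have := congrFun hm 1
    simpa using this
  have hg : r • f g = M.ρ g m := congrFun hm g
  have : r • (f g - M.ρ g (f 1)) = 0 := by
    rw [smul_sub, hg, ← map_smul, h1, sub_self]
  exact sub_eq_zero.mp (h _ this)

variable [Fintype G]

theorem downι_injective (M : Rep R G) : Function.Injective (downι M).hom :=
  (Rep.mono_iff_injective _).1 inferInstance

theorem downπ_downι_apply (M : Rep R G) (x : (down M).V) :
    ∑ g : G, M.ρ g⁻¹ ((downι M).hom x g) = 0 := by
  have : (downπ M).hom ((downι M).hom x) = 0 := by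
    have := congrArg (fun f => f.hom x) (downι_downπ M)
    simpa using this
  rwa [downπ_apply] at this

theorem exists_downι_apply_eq (M : Rep R G) (f : G → M.V)
    (hf : ∑ g : G, M.ρ g⁻¹ (f g) = 0) : ∃ x : (down M).V, (downι M).hom x = f :=
  rep_exact_apply (downSC_shortExact M).exact f hf

/-- If `r` kills `M`, it kills `down M`. -/
theorem down_smul_eq_zero (M : Rep R G) (r : R) (h : ∀ m : M.V, r • m = 0) (x : (down M).V) :
    r • x = 0 := by
  apply downι_injective M
  rw [map_smul, map_zero]
  funext g
  exact h _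

/-- If `M` has no `r`-torsion, neither has `down M`. -/
theorem down_smul_cancel (M : Rep R G) (r : R) (h : ∀ m : M.V, r • m = 0 → m = 0)
    (x : (down M).V) (hx : r • x = 0) : x = 0 := by
  apply downι_injective M
  rw [map_zero]
  have h1 : r • (downι M).hom x = 0 := by rw [← map_smul, hx, map_zero]
  funext g
  exact h _ (congrFun h1 g)

end Fermat.Agent.CFT.A2
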