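import Mathlib
import Fermat.Agent.CFT.A2.MackeyHom
import Fermat.Agent.CFT.A2.ShiftExtra

/-!
# PROJECT C, slice A2 (part 8): cohomological triviality along injective homomorphisms

`IsCohTrivialInj M`: for every injective homomorphism `f : H →* G` from a finite group (in the same
universe) the Tate cohomology of `Rep.res f M` vanishes in every degree.  This implies
`IsCohTrivial M` (take `f = H.subtype`), is inherited by restrictions (`IsCohTrivialInj.res`, since
`Rep.res g (Rep.res f M)` is definitionally `Rep.res (f.comp g) M`), holds for coinduced modules,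
is closed under isomorphisms, retracts, two-out-of-three, and both dimension shifts.
-/

set_option autoImplicit false

open CategoryTheory Limits

universe u

namespace Fermat.Agent.CFT.A2

variable {R G : Type u} [CommRing R] [Group G]

/-- Cohomological triviality along all injective homomorphisms from finite groups. -/
def IsCohTrivialInj (M : Rep R G) : Prop :=
  ∀ (H : Type u) [Group H] [Fintype H] (f : H →* G), Function.Injective f → ∀ n : ℤ,
    IsZero (tateCohomology (Rep.res f M) n)

theorem IsCohTrivialInj.isCohTrivial {M : Rep R G} (h : IsCohTrivialInj M) : IsCohTrivial M :=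
  fun H _ n => h H H.subtype H.subtype_injective n

theorem IsCohTrivialInj.res {M : Rep R G} (h : IsCohTrivialInj M) {H : Type u} [Group H]
    (f : H →* G) (hf : Function.Injective f) : IsCohTrivialInj (Rep.res f M) :=
  fun K _ _ g hg n => h K (f.comp g) (hf.comp hg) n

theorem isCohTrivialInj_coind₁ (X : Type u) [AddCommGroup X] [Module R X] :
    IsCohTrivialInj (coind₁ R G X) :=
  fun _ _ _ f hf n => isZero_tateCohomology_res_coind₁_of_injective R G X f hf n

theorem IsCohTrivialInj.of_iso {M N : Rep R G} (e : M ≅ N) (h : IsCohTrivialInj M) :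
    IsCohTrivialInj N :=
  fun H _ _ f hf n => IsZero.of_iso (h H f hf n)
    ((tateCohomologyFunctor n).mapIso ((Rep.resFunctor f).mapIso e.symm))

theorem IsCohTrivialInj.of_retract {M N : Rep R G} (i : N ⟶ M) (p : M ⟶ N) (hip : i ≫ p = 𝟙 N)
    (h : IsCohTrivialInj M) : IsCohTrivialInj N := by
  intro H _ _ f hf n
  rw [IsZero.iff_id_eq_zero]
  have h1 : (tateCohomologyFunctor n).map ((Rep.resFunctor f).map i) ≫
      (tateCohomologyFunctor n).map ((Rep.resFunctor f).map p) = 𝟙 _ := by
    rw [← CategoryTheory.Functor.map_comp, ← CategoryTheory.Functor.map_comp, hip,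
      CategoryTheory.Functor.map_id, CategoryTheory.Functor.map_id]
  rw [← h1, (h H f hf n).eq_of_tgt ((tateCohomologyFunctor n).map ((Rep.resFunctor f).map i)) 0,
    zero_comp]

section TwoOfThree

variable {S : ShortComplex (Rep R G)} (hS : S.ShortExact)
include hS

theorem IsCohTrivialInj.X₂ (h1 : IsCohTrivialInj S.X₁) (h3 : IsCohTrivialInj S.X₃) :
    IsCohTrivialInj S.X₂ :=
  fun H _ _ f hf n => isZero_tateCohomology_X₂ ((Rep.shortExact_res f).2 hS) n (h1 H f hf n)
    (h3 H f hf n)

theorem IsCohTrivialInj.X₃ (h1 : IsCohTrivialInj S.X₁) (h2 : IsCohTrivialInj S.X₂) :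
    IsCohTrivialInj S.X₃ :=
  fun H _ _ f hf n => isZero_tateCohomology_X₃ ((Rep.shortExact_res f).2 hS) n (h2 H f hf n)
    (h1 H f hf (n + 1))

theorem IsCohTrivialInj.X₁ (h2 : IsCohTrivialInj S.X₂) (h3 : IsCohTrivialInj S.X₃) :
    IsCohTrivialInj S.X₁ := by
  intro H _ _ f hf n
  have := isZero_tateCohomology_X₁ ((Rep.shortExact_res f).2 hS) (n - 1) (h3 H f hf (n - 1))
    (by rw [sub_add_cancel]; exact h2 H f hf n)
  rw [sub_add_cancel] at this
  exact this

end TwoOfThree

/-! ### Shifts along injective homomorphisms -/

section Shift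

variable {H : Type u} [Group H] [Fintype H] (f : H →* G) (hf : Function.Injective f)
include hf

theorem isZero_tateCohomology_res_up_iff (M : Rep R G) (n : ℤ) :
    IsZero (tateCohomology (Rep.res f (up M)) n) ↔
      IsZero (tateCohomology (Rep.res f M) (n + 1)) :=
  isZero_tateCohomology_X₃_iff_X₁ ((Rep.shortExact_res f).2 (upSC_shortExact M)) n
    (isZero_tateCohomology_res_coind₁_of_injective R G M.V f hf n)
    (isZero_tateCohomology_res_coind₁_of_injective R G M.V f hf (n + 1))

theorem isZero_tateCohomology_res_down_iff [Fintype G] (M : Rep R G) (n : ℤ) :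
    IsZero (tateCohomology (Rep.res f (down M)) (n + 1)) ↔
      IsZero (tateCohomology (Rep.res f M) n) :=
  (isZero_tateCohomology_X₃_iff_X₁ ((Rep.shortExact_res f).2 (downSC_shortExact M)) n
    (isZero_tateCohomology_res_coind₁_of_injective R G M.V f hf n)
    (isZero_tateCohomology_res_coind₁_of_injective R G M.V f hf (n + 1))).symm

end Shift

theorem isCohTrivialInj_up_iff (M : Rep R G) : IsCohTrivialInj (up M) ↔ IsCohTrivialInj M := by
  constructor
  · intro h H _ _ f hf n
    have := (isZero_tateCohomology_res_up_iff f hf M (n - 1)).1 (h H f hf (n - 1))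
    rw [sub_add_cancel] at this
    exact this
  · intro h H _ _ f hf n
    exact (isZero_tateCohomology_res_up_iff f hf M n).2 (h H f hf (n + 1))

theorem isCohTrivialInj_down_iff [Fintype G] (M : Rep R G) :
    IsCohTrivialInj (down M) ↔ IsCohTrivialInj M := by
  constructor
  · intro h H _ _ f hf n
    exact (isZero_tateCohomology_res_down_iff f hf M n).1 (h H f hf (n + 1))
  · intro h H _ _ f hf n
    have := (isZero_tateCohomology_res_down_iff f hf M (n - 1)).2 (h H f hf (n - 1))
    rw [sub_add_cancel] at this
    exact this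

end Fermat.Agent.CFT.A2
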