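import Mathlib
import Fermat.Agent.CFT.A2.TrivialHom

/-!
# PROJECT C, slice A2 (part 10): the regular representation is cohomologically trivial

For a finite group `G`, `Rep.leftRegular R G ≅ coind₁ R G R` (`a ↦ (x ↦ a (x⁻¹))`), hence the left
regular representation is cohomologically trivial (`isCohTrivialInj_leftRegular`,
`isZero_tateCohomology_res_leftRegular`).
-/

set_option autoImplicit false

open CategoryTheory Limits

universe u

namespace Fermat.Agent.CFT.A2

variable (R G : Type u) [CommRing R] [Group G] [Fintype G]

/-- `R[G] ≃ (G → R)`, `a ↦ (x ↦ a (x⁻¹))`. -/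
noncomputable def leftRegularLinearEquiv : MonoidAlgebra R G ≃ₗ[R] (G → R) :=
  ((MonoidAlgebra.coeffLinearEquiv R).trans (Finsupp.linearEquivFunOnFinite R R G)).trans
    (LinearEquiv.funCongrLeft R R (Equiv.inv G))

open Classical in
theorem leftRegularLinearEquiv_single (x : G) (r : R) (y : G) :
    leftRegularLinearEquiv R G (MonoidAlgebra.single x r) y = if x = y⁻¹ then r else 0 := by
  simp [leftRegularLinearEquiv, Pi.single_apply, eq_comm]

/-- For a finite group, the left regular representation is coinduced. -/
noncomputable def leftRegularIsoCoind₁ : Rep.leftRegular R G ≅ coind₁ R G R :=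
  Rep.mkIso (Representation.Equiv.mk (leftRegularLinearEquiv R G) (fun g => by
    classical
    refine MonoidAlgebra.lhom_ext' (fun x => LinearMap.ext_ring ?_)
    funext y
    simp only [LinearMap.coe_comp, Function.comp_apply, LinearEquiv.coe_coe,
      Representation.ofMulAction_single, smul_eq_mul, MonoidAlgebra.lsingle_apply, funRep_apply,
      leftRegularLinearEquiv_single, mul_inv_rev]
    have : g * x = y⁻¹ ↔ x = g⁻¹ * y⁻¹ := by rw [eq_inv_mul_iff_mul_eq]
    simp only [this]))

/-- The left regular representation of a finite group is cohomologically trivial. -/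
theorem isCohTrivialInj_leftRegular : IsCohTrivialInj (Rep.leftRegular R G) :=
  (isCohTrivialInj_coind₁ (R := R) (G := G) R).of_iso (leftRegularIsoCoind₁ R G).symm

theorem isCohTrivial_leftRegular : IsCohTrivial (Rep.leftRegular R G) :=
  (isCohTrivialInj_leftRegular R G).isCohTrivial

variable {G}

/-- Explicit form: the Tate cohomology of the restriction of `R[G]` along an injective
homomorphism from a finite group vanishes in every degree. -/
theorem isZero_tateCohomology_res_leftRegular {H : Type u} [Group H] [Fintype H] (f : H →* G)
    (hf : Function.Injective f) (n : ℤ) :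
    IsZero (tateCohomology (Rep.res f (Rep.leftRegular R G)) n) :=
  isCohTrivialInj_leftRegular R G H f hf n

end Fermat.Agent.CFT.A2
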