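import Mathlib
import Fermat.Agent.CFT.A2.TrivialHom
import Fermat.Agent.CFT.A1.Sylow

/-!
# PROJECT C, slice A2 (part 9): Sylow reduction for Tate cohomology

* `downδTop`, `upδTop` : the shift isomorphisms for the full group `G` (no restriction);
* `isZero_tateCohomology_of_sylow` : for EVERY degree `n : ℤ`, if for every prime `p` the Tate
  cohomology of (the restriction to) some Sylow `p`-subgroup vanishes in degree `n`, then
  `Ĥⁿ(G, M) = 0`  (degrees `n ≥ 1` from A1 `cores ∘ res = index`; other degrees by shifting);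
* `resIsoOfConj` : restrictions along conjugate homomorphisms are isomorphic;
* `isCohTrivialInj_of_sylow` : if `M` is cohomologically trivial over ONE Sylow `p`-subgroup for
  every prime `p`, then `M` is cohomologically trivial (over every subgroup).
-/

set_option autoImplicit false

open CategoryTheory Limits

universe u

namespace Fermat.Agent.CFT.A2

variable {R G : Type u} [CommRing R] [Group G]

/-! ### Shifts for the full group -/

section Top

variable [Fintype G]

/-- The connecting map `Ĥⁿ(G, M) ⟶ Ĥⁿ⁺¹(G, down M)` for the full group. -/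
noncomputable def downδTop (M : Rep R G) (n : ℤ) :
    tateCohomology M n ⟶ tateCohomology (down M) (n + 1) :=
  TateCohomology.δ (downSC_shortExact M) n

instance (M : Rep R G) (n : ℤ) : IsIso (downδTop M n) :=
  isIso_δ_of_isZero (downSC_shortExact M) n
    (isZero_tateCohomology_coind₁ R G M.V n) (isZero_tateCohomology_coind₁ R G M.V (n + 1))

/-- The connecting map `Ĥⁿ(G, up M) ⟶ Ĥⁿ⁺¹(G, M)` for the full group. -/
noncomputable def upδTop (M : Rep R G) (n : ℤ) :
    tateCohomology (up M) n ⟶ tateCohomology M (n + 1) :=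
  TateCohomology.δ (upSC_shortExact M) n

instance (M : Rep R G) (n : ℤ) : IsIso (upδTop M n) :=
  isIso_δ_of_isZero (upSC_shortExact M) n
    (isZero_tateCohomology_coind₁ R G M.V n) (isZero_tateCohomology_coind₁ R G M.V (n + 1))

theorem isZero_tateCohomology_down_top_iff (M : Rep R G) (n : ℤ) :
    IsZero (tateCohomology (down M) (n + 1)) ↔ IsZero (tateCohomology M n) :=
  ⟨fun h => IsZero.of_iso h (asIso (downδTop M n)),
    fun h => IsZero.of_iso h (asIso (downδTop M n)).symm⟩

theorem isZero_tateCohomology_up_top_iff (M : Rep R G) (n : ℤ) :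
    IsZero (tateCohomology (up M) n) ↔ IsZero (tateCohomology M (n + 1)) :=
  ⟨fun h => IsZero.of_iso h (asIso (upδTop M n)).symm,
    fun h => IsZero.of_iso h (asIso (upδTop M n))⟩

/-! ### Sylow reduction, one degree at a time -/

/-- Sylow reduction in positive Tate degrees (from A1). -/
theorem isZero_tateCohomology_of_sylow_pos (M : Rep R G) (n : ℕ) [NeZero n]
    (h : ∀ (p : ℕ) [Fact p.Prime], ∃ (P : Sylow p G) (_ : Fintype (P : Subgroup G)),
      IsZero (tateCohomology (Rep.res (P : Subgroup G).subtype M) n)) :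
    IsZero (tateCohomology M n) := by
  refine IsZero.of_iso ?_ ((TateCohomology.isoGroupCohomology n).app M)
  refine A1.isZero_of_isZero_sylow M n (fun p _ => ?_)
  obtain ⟨P, inst, hP⟩ := h p
  exact ⟨P, IsZero.of_iso hP ((TateCohomology.isoGroupCohomology n).app _).symm⟩

theorem isZero_tateCohomology_of_sylow_aux (k : ℕ) : ∀ (M : Rep R G) (n : ℤ), 1 ≤ n + k →
    (∀ (p : ℕ) [Fact p.Prime], ∃ (P : Sylow p G) (_ : Fintype (P : Subgroup G)),
      IsZero (tateCohomology (Rep.res (P : Subgroup G).subtype M) n)) →
    IsZero (tateCohomology M n) := by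
  induction k with
  | zero =>
    intro M n hn h
    obtain ⟨m, rfl⟩ : ∃ m : ℕ, n = (m : ℤ) := ⟨n.toNat, by omega⟩
    have : NeZero m := ⟨by omega⟩
    exact isZero_tateCohomology_of_sylow_pos M m h
  | succ k ih =>
    intro M n hn h
    rw [← isZero_tateCohomology_down_top_iff]
    refine ih (down M) (n + 1) (by push_cast at hn; omega) (fun p _ => ?_)
    obtain ⟨P, inst, hP⟩ := h p
    exact ⟨P, inst, (isZero_tateCohomology_down_iff M (P : Subgroup G) n).2 hP⟩

/-- **Sylow reduction for Tate cohomology** in every degree `n : ℤ`: if for every prime `p` the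
Tate cohomology of some Sylow `p`-subgroup vanishes in degree `n`, so does that of `G`. -/
theorem isZero_tateCohomology_of_sylow (M : Rep R G) (n : ℤ)
    (h : ∀ (p : ℕ) [Fact p.Prime], ∃ (P : Sylow p G) (_ : Fintype (P : Subgroup G)),
      IsZero (tateCohomology (Rep.res (P : Subgroup G).subtype M) n)) :
    IsZero (tateCohomology M n) :=
  isZero_tateCohomology_of_sylow_aux (1 - n).toNat M n (by omega) h

end Top

/-! ### Conjugation -/

/-- Restrictions along conjugate homomorphisms are isomorphic. -/
noncomputable def resIsoOfConj (M : Rep R G) {H : Type u} [Group H] (f₁ f₂ : H →* G) (g : G)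
    (h : ∀ x, f₁ x = g * f₂ x * g⁻¹) : Rep.res f₁ M ≅ Rep.res f₂ M :=
  Rep.mkIso (Representation.Equiv.mk
    { toFun := fun m => M.ρ g⁻¹ m
      map_add' := fun _ _ => map_add _ _ _
      map_smul' := fun _ _ => map_smul _ _ _
      invFun := fun m => M.ρ g m
      left_inv := fun m => by
        show M.ρ g (M.ρ g⁻¹ m) = m
        rw [← Module.End.mul_apply, ← map_mul, mul_inv_cancel, map_one, Module.End.one_apply]
      right_inv := fun m => by
        show M.ρ g⁻¹ (M.ρ g m) = m
        rw [← Module.End.mul_apply, ← map_mul, inv_mul_cancel, map_one, Module.End.one_apply] }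
    (fun x => by
      ext m
      show M.ρ g⁻¹ (M.ρ (f₁ x) m) = M.ρ (f₂ x) (M.ρ g⁻¹ m)
      rw [h x, ← Module.End.mul_apply, ← map_mul, ← Module.End.mul_apply, ← map_mul]
      congr 2
      group))

/-- A `p`-group mapping to `G` is conjugate into any given Sylow `p`-subgroup. -/
theorem exists_conj_mem_sylow [Finite G] {p : ℕ} [Fact p.Prime] (P : Sylow p G)
    {H : Type u} [Group H] (f : H →* G) (hH : IsPGroup p H) :
    ∃ g : G, ∀ x : H, g⁻¹ * f x * g ∈ (P : Subgroup G) := by
  have hp : IsPGroup p (f.range) :=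
    IsPGroup.of_surjective hH f.rangeRestrict f.rangeRestrict_surjective
  obtain ⟨P', hP'⟩ := hp.exists_le_sylow
  obtain ⟨g, hg⟩ := MulAction.exists_smul_eq G P P'
  refine ⟨g, fun x => ?_⟩
  have hx : f x ∈ (P' : Subgroup G) := hP' ⟨x, rfl⟩
  rw [← hg, Sylow.coe_subgroup_smul, Subgroup.mem_pointwise_smul_iff_inv_smul_mem] at hx
  simpa [MulAut.smul_def, mul_assoc] using hx

/-! ### Cohomological triviality from the Sylow subgroups -/

/-- If `M` is cohomologically trivial over one Sylow `p`-subgroup for every prime `p`, then it is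
cohomologically trivial. -/
theorem isCohTrivialInj_of_sylow [Finite G] (M : Rep R G)
    (h : ∀ (p : ℕ) [Fact p.Prime], ∃ P : Sylow p G,
      IsCohTrivialInj (Rep.res (P : Subgroup G).subtype M)) :
    IsCohTrivialInj M := by
  intro H _ _ f hf n
  refine isZero_tateCohomology_of_sylow (Rep.res f M) n (fun p _ => ?_)
  obtain ⟨P, hP⟩ := h p
  obtain ⟨Q⟩ : Nonempty (Sylow p H) := inferInstance
  refine ⟨Q, Fintype.ofFinite _, ?_⟩
  obtain ⟨g, hg⟩ := exists_conj_mem_sylow P (f.comp (Q : Subgroup H).subtype) Q.isPGroup'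
  -- the conjugated inclusion of `Q` into `P`
  let ψ : (Q : Subgroup H) →* (P : Subgroup G) :=
    { toFun := fun x => ⟨g⁻¹ * f x * g, hg x⟩
      map_one' := by ext; simp
      map_mul' := fun x y => by ext; simp [mul_assoc] }
  have hψ : Function.Injective ψ := by
    intro x y hxy
    have : g⁻¹ * f x * g = g⁻¹ * f y * g := congrArg Subtype.val hxy
    have h2 : f (x : H) = f (y : H) := by
      have := mul_right_cancel this
      exact mul_left_cancel this
    exact Subtype.ext (hf h2)
  let _ : Fintype (Q : Subgroup H) := Fintype.ofFinite _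
  have h1 := hP (Q : Subgroup H) ψ hψ n
  refine IsZero.of_iso h1 ((tateCohomologyFunctor n).mapIso ?_)
  exact (resIsoOfConj M ((P : Subgroup G).subtype.comp ψ) (f.comp (Q : Subgroup H).subtype) g⁻¹
    (fun x => by simp [ψ])).symm

end Fermat.Agent.CFT.A2
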