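import Mathlib
import Fermat.Agent.CFT.A2.SylowTriv

/-!
# PROJECT C, slice A2 (part 11): transport of Tate cohomology along group isomorphisms

Mathlib's `tateCohomology` is functorial in the module only.  For a group isomorphism `e : H ≃* G`
and `M : Rep R G` we build the isomorphism of Tate complexes
`tateComplexMapOfMulEquiv e M : tateComplex M ⟶ tateComplex (Rep.res e M)` (cochains restricted
along `e`, chains pushed along `e⁻¹`, compatible with the norm) and deduce
`tateCohomologyIsoOfMulEquiv e M n : tateCohomology M n ≅ tateCohomology (Rep.res e M) n`.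

Consequences: `IsCohTrivial M ↔ IsCohTrivialInj M` (`isCohTrivial_iff_isCohTrivialInj`),
`IsCohTrivial.res` (inherited by subgroups), `isCohTrivial_of_sylow`.
-/

set_option autoImplicit false

open CategoryTheory Limits groupCohomology groupHomology

universe u

namespace Fermat.Agent.CFT.A2

variable {R G H : Type u} [CommRing R] [Group G] [Group H]

/-- The identity of the underlying module, as a morphism `M ⟶ Res(e⁻¹) Res(e) M`. -/
noncomputable def toResSymmRes (e : H ≃* G) (M : Rep R G) :
    M ⟶ Rep.res e.symm.toMonoidHom (Rep.res e.toMonoidHom M) :=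
  Rep.ofHom (ρ := M.ρ) (σ := (M.ρ.comp e.toMonoidHom).comp e.symm.toMonoidHom)
    { toLinearMap := LinearMap.id
      isIntertwining' := fun g => by
        ext m
        simp }

theorem toResSymmRes_apply (e : H ≃* G) (M : Rep R G) (m : M.V) :
    (toResSymmRes e M).hom m = m := rfl

instance (e : H ≃* G) (M : Rep R G) : Mono (toResSymmRes e M) :=
  (Rep.mono_iff_injective _).2 (fun _ _ h => h)

instance (e : H ≃* G) (M : Rep R G) : Epi (toResSymmRes e M) :=
  (Rep.epi_iff_surjective _).2 (fun m => ⟨m, rfl⟩)

theorem tateNorm_single [Fintype G] (M : Rep R G) (x : Fin 0 → G) (a : M.V) (y : Fin 0 → G) :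
    (ModuleCat.Hom.hom M.tateNorm) (Finsupp.single x a) y = ∑ g : G, M.ρ g a := by
  rw [Rep.tateNorm_eq]
  simp [Representation.norm]

variable [Fintype G] [Fintype H]

/-- Transport of the Tate complex along a group isomorphism. -/
noncomputable def tateComplexMapOfMulEquiv (e : H ≃* G) (M : Rep R G) :
    tateComplex M ⟶ tateComplex (Rep.res e.toMonoidHom M) :=
  CochainComplex.ConnectData.map _ _
    (chainsMap e.symm.toMonoidHom (toResSymmRes e M))
    (cochainsMap e.toMonoidHom (𝟙 (Rep.res e.toMonoidHom M))) (by
      ext x a y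
      simp only [cochainsMap_f, ModuleCat.hom_comp,
        ModuleCat.hom_ofHom, LinearMap.coe_comp, Function.comp_apply, Finsupp.lsingle_apply]
      rw [chainsMap_f_single]
      simp only [tateComplexConnectData_d₀]
      rw [tateNorm_single]
      change _ = (ModuleCat.Hom.hom M.tateNorm) (Finsupp.single x a) (⇑e.toMonoidHom ∘ y)
      rw [tateNorm_single]
      exact Fintype.sum_equiv e.toEquiv _ _ (fun h => rfl))


instance isIso_tateComplexMapOfMulEquiv (e : H ≃* G) (M : Rep R G) :
    IsIso (tateComplexMapOfMulEquiv e M) := by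
  have : ∀ n : ℤ, IsIso ((tateComplexMapOfMulEquiv e M).f n) := by
    rintro (n | n)
    · have h1 : Mono ((cochainsMap e.toMonoidHom (𝟙 (Rep.res e.toMonoidHom M))).f n) :=
        cochainsMap_f_map_mono _ _ e.surjective n
      have h2 : Epi ((cochainsMap e.toMonoidHom (𝟙 (Rep.res e.toMonoidHom M))).f n) :=
        cochainsMap_f_map_epi _ _ e.injective n
      exact isIso_of_mono_of_epi
        ((cochainsMap e.toMonoidHom (𝟙 (Rep.res e.toMonoidHom M))).f n)
    · have h1 : Mono ((chainsMap e.symm.toMonoidHom (toResSymmRes e M)).f n) :=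
        chainsMap_f_map_mono _ _ e.symm.injective n
      have h2 : Epi ((chainsMap e.symm.toMonoidHom (toResSymmRes e M)).f n) :=
        chainsMap_f_map_epi _ _ e.symm.surjective n
      exact isIso_of_mono_of_epi ((chainsMap e.symm.toMonoidHom (toResSymmRes e M)).f n)
  exact HomologicalComplex.Hom.isIso_of_components _

/-- Transport of Tate cohomology along a group isomorphism. -/
noncomputable def tateCohomologyIsoOfMulEquiv (e : H ≃* G) (M : Rep R G) (n : ℤ) :
    tateCohomology M n ≅ tateCohomology (Rep.res e.toMonoidHom M) n :=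
  (HomologicalComplex.homologyFunctor _ _ n).mapIso
    (@asIso _ _ _ _ (tateComplexMapOfMulEquiv e M) (isIso_tateComplexMapOfMulEquiv e M))

section Bridge

omit [Fintype G] [Fintype H]

/-- The subgroup form of cohomological triviality implies the form along injective
homomorphisms. -/
theorem IsCohTrivial.isCohTrivialInj {M : Rep R G} (h : IsCohTrivial M) : IsCohTrivialInj M := by
  intro H _ _ f hf n
  let e : H ≃* f.range := MonoidHom.ofInjective hf
  let _ : Fintype f.range := Fintype.ofEquiv H e.toEquiv
  have h1 := h f.range n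
  exact IsZero.of_iso h1 (tateCohomologyIsoOfMulEquiv e (Rep.res f.range.subtype M) n).symm

theorem isCohTrivial_iff_isCohTrivialInj (M : Rep R G) : IsCohTrivial M ↔ IsCohTrivialInj M :=
  ⟨IsCohTrivial.isCohTrivialInj, IsCohTrivialInj.isCohTrivial⟩


/-- Cohomological triviality is inherited by subgroups. -/
theorem IsCohTrivial.res {M : Rep R G} (h : IsCohTrivial M) (S : Subgroup G) :
    IsCohTrivial (Rep.res S.subtype M) :=
  (h.isCohTrivialInj.res S.subtype S.subtype_injective).isCohTrivial

/-- Cohomological triviality is invariant under group isomorphisms. -/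
theorem IsCohTrivial.of_mulEquiv {M : Rep R G} (h : IsCohTrivial M) (e : H ≃* G) :
    IsCohTrivial (Rep.res e.toMonoidHom M) :=
  (h.isCohTrivialInj.res e.toMonoidHom e.injective).isCohTrivial

/-- If `M` is cohomologically trivial over one Sylow `p`-subgroup for every prime `p`, then it is
cohomologically trivial (subgroup form). -/
theorem isCohTrivial_of_sylow [Finite G] (M : Rep R G)
    (h : ∀ (p : ℕ) [Fact p.Prime], ∃ P : Sylow p G,
      IsCohTrivial (Rep.res (P : Subgroup G).subtype M)) :
    IsCohTrivial M :=
  (isCohTrivialInj_of_sylow M (fun p _ => by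
    obtain ⟨P, hP⟩ := h p
    exact ⟨P, hP.isCohTrivialInj⟩)).isCohTrivial

end Bridge

end Fermat.Agent.CFT.A2
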