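import Mathlib
import Fermat.Agent.CFT.A2.ShiftExtra

/-!
# PROJECT C, slice A2 (part 12): `up M` and `down M` as modules (LD4)

As `R`-modules, `up M = coind₁ M / M` and `down M = ker (coind₁ M → M)` are both isomorphic to the
functions `G ∖ {1} → M` (`upLinearEquiv`, `downLinearEquiv`).  Hence they are free / finite over `R`
when `M` is and `G` is finite (instances `up_free`, `up_finite`, `down_free`, `down_finite`): the
dimension shifts of a lattice are lattices.
-/

set_option autoImplicit false

open CategoryTheory Limits

universe u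

namespace Fermat.Agent.CFT.A2

variable {R G : Type u} [CommRing R] [Group G]

/-- `f ↦ (x ↦ f x - ρ(x) (f 1))` on the complement of `1`. -/
noncomputable def upAux (M : Rep R G) : (G → M.V) →ₗ[R] ({x : G // x ≠ 1} → M.V) where
  toFun f := fun x => f x - M.ρ x (f 1)
  map_add' f f' := by
    funext x
    simp only [Pi.add_apply, map_add]
    abel
  map_smul' r f := by
    funext x
    simp only [Pi.smul_apply, map_smul, RingHom.id_apply, smul_sub]

theorem upAux_apply (M : Rep R G) (f : G → M.V) (x : {x : G // x ≠ 1}) :
    upAux M f x = f x - M.ρ x (f 1) := rfl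

open Classical in
theorem upAux_surjective (M : Rep R G) : Function.Surjective (upAux M) := by
  intro h
  refine ⟨fun x => if hx : x = 1 then 0 else h ⟨x, hx⟩, ?_⟩
  funext x
  rw [upAux_apply]
  simp [x.2]

theorem ker_upAux (M : Rep R G) :
    LinearMap.ker (upAux M) = LinearMap.ker (upπ M).hom.toLinearMap := by
  ext f
  rw [LinearMap.mem_ker, LinearMap.mem_ker]
  show upAux M f = 0 ↔ (upπ M).hom f = 0
  rw [upπ_apply_eq_zero_iff]
  constructor
  · intro h
    refine ⟨f 1, ?_⟩
    funext x
    by_cases hx : x = 1
    · subst hx; simp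
    · have := congrFun h ⟨x, hx⟩
      rw [upAux_apply] at this
      exact sub_eq_zero.mp this
  · rintro ⟨m, rfl⟩
    funext x
    rw [upAux_apply]
    simp

/-- As an `R`-module, `up M ≃ (G ∖ {1} → M)`. -/
noncomputable def upLinearEquiv (M : Rep R G) : (up M).V ≃ₗ[R] ({x : G // x ≠ 1} → M.V) :=
  ((LinearMap.quotKerEquivOfSurjective (upπ M).hom.toLinearMap (upπ_surjective M)).symm.trans
    (Submodule.quotEquivOfEq _ _ (ker_upAux M).symm)).trans
    (LinearMap.quotKerEquivOfSurjective (upAux M) (upAux_surjective M))

theorem upLinearEquiv_upπ (M : Rep R G) (f : G → M.V) :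
    upLinearEquiv M ((upπ M).hom f) = upAux M f := by
  unfold upLinearEquiv
  simp only [LinearEquiv.trans_apply]
  have h1 : (LinearMap.quotKerEquivOfSurjective (upπ M).hom.toLinearMap (upπ_surjective M)).symm
      ((upπ M).hom f) = Submodule.Quotient.mk f := by
    rw [LinearEquiv.symm_apply_eq]
    rfl
  rw [h1]
  rfl


instance up_free (M : Rep R G) [Finite G] [Module.Free R M.V] : Module.Free R (up M).V :=
  Module.Free.of_equiv (upLinearEquiv M).symm

instance up_finite (M : Rep R G) [Finite G] [Module.Finite R M.V] : Module.Finite R (up M).V :=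
  Module.Finite.equiv (upLinearEquiv M).symm

variable [Fintype G]

/-- Restriction of a function in `down M` to the complement of `1`. -/
noncomputable def downAux (M : Rep R G) : (down M).V →ₗ[R] ({x : G // x ≠ 1} → M.V) :=
  (LinearMap.funLeft R M.V (fun x : {x : G // x ≠ 1} => (x : G))).comp (downι M).hom.toLinearMap

theorem downAux_apply (M : Rep R G) (y : (down M).V) (x : {x : G // x ≠ 1}) :
    downAux M y x = (downι M).hom y x := rfl

open Classical in
theorem downAux_bijective (M : Rep R G) : Function.Bijective (downAux M) := by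
  constructor
  · rw [← LinearMap.ker_eq_bot, LinearMap.ker_eq_bot']
    intro y hy
    apply downι_injective M
    rw [map_zero]
    have h0 : ∀ x : G, x ≠ 1 → (downι M).hom y x = 0 := fun x hx => congrFun hy ⟨x, hx⟩
    have hsum := downπ_downι_apply M y
    rw [Finset.sum_eq_single 1 (fun x _ hx => by rw [h0 x hx, map_zero]) (by simp)] at hsum
    simp only [inv_one, map_one, Module.End.one_apply] at hsum
    funext x
    by_cases hx : x = 1
    · subst hx; exact hsum
    · exact h0 x hx
  · intro h
    let f : G → M.V := fun x => if hx : x = 1 then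
      - ∑ z : {z : G // z ≠ 1}, M.ρ (z : G)⁻¹ (h z) else h ⟨x, hx⟩
    have hf : ∑ g : G, M.ρ g⁻¹ (f g) = 0 := by
      rw [← Finset.add_sum_erase Finset.univ _ (Finset.mem_univ (1 : G))]
      have h1 : f 1 = - ∑ z : {z : G // z ≠ 1}, M.ρ (z : G)⁻¹ (h z) := by simp [f]
      have h2 : ∑ x ∈ Finset.univ.erase (1 : G), M.ρ x⁻¹ (f x) =
          ∑ z : {z : G // z ≠ 1}, M.ρ (z : G)⁻¹ (h z) := by
        rw [Finset.sum_subtype (Finset.univ.erase (1 : G)) (p := fun z => z ≠ 1)
          (fun x => by simp) (fun x => M.ρ x⁻¹ (f x))]
        refine Finset.sum_congr rfl (fun z _ => ?_)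
        simp [f, z.2]
      rw [h2, h1]
      simp
    obtain ⟨y, hy⟩ := exists_downι_apply_eq M f hf
    refine ⟨y, ?_⟩
    funext x
    rw [downAux_apply, hy]
    simp [f, x.2]

/-- As an `R`-module, `down M ≃ (G ∖ {1} → M)`. -/
noncomputable def downLinearEquiv (M : Rep R G) : (down M).V ≃ₗ[R] ({x : G // x ≠ 1} → M.V) :=
  LinearEquiv.ofBijective (downAux M) (downAux_bijective M)

instance down_free (M : Rep R G) [Module.Free R M.V] : Module.Free R (down M).V :=
  Module.Free.of_equiv (downLinearEquiv M).symm

instance down_finite (M : Rep R G) [Module.Finite R M.V] : Module.Finite R (down M).V :=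
  Module.Finite.equiv (downLinearEquiv M).symm

/-! ### `ℤ`-coefficients: statements for the canonical `ℤ`-module structure

For `M : Rep ℤ G` the module structure `M.hV2` is equal, but not definitionally equal, to
`AddCommGroup.toIntModule M.V`; instance search may pick either.  The lemmas below are stated for
the canonical structure on both sides. -/

section Int

variable {Γ : Type} [Group Γ] [Fintype Γ] (M : Rep.{0} ℤ Γ)

omit [Fintype Γ] in
theorem int_module_eq (A : Rep.{0} ℤ Γ) : (AddCommGroup.toIntModule A.V : Module ℤ A.V) = A.hV2 :=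
  Subsingleton.elim _ _

theorem up_free_int (h : @Module.Free ℤ M.V _ _ (AddCommGroup.toIntModule M.V)) :
    @Module.Free ℤ (up M).V _ _ (AddCommGroup.toIntModule _) := by
  rw [int_module_eq] at h ⊢
  exact up_free M

theorem up_finite_int (h : @Module.Finite ℤ M.V _ _ (AddCommGroup.toIntModule M.V)) :
    @Module.Finite ℤ (up M).V _ _ (AddCommGroup.toIntModule _) := by
  rw [int_module_eq] at h ⊢
  exact up_finite M

theorem down_free_int (h : @Module.Free ℤ M.V _ _ (AddCommGroup.toIntModule M.V)) :
    @Module.Free ℤ (down M).V _ _ (AddCommGroup.toIntModule _) := by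
  rw [int_module_eq] at h ⊢
  exact down_free M

theorem down_finite_int (h : @Module.Finite ℤ M.V _ _ (AddCommGroup.toIntModule M.V)) :
    @Module.Finite ℤ (down M).V _ _ (AddCommGroup.toIntModule _) := by
  rw [int_module_eq] at h ⊢
  exact down_finite M

end Int

end Fermat.Agent.CFT.A2
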